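import Mathlib
import Fermat.Agent.LT.Base.Residue
import Fermat.Agent.LT.Descent.Ops

set_option autoImplicit false

/-!
# The general input of the Langlands-Tunnell argument

A surjective representation onto `GL₂(𝔽₃)` with cyclotomic determinant, and the fields cut out.
No condition at the ramified primes.
-/

noncomputable section

open NumberField IsDedekindDomain Matrix
open FermatAgent.LT (IsQ8 quaternionSubgroup q8Trace IsFrobOver galInt galPlace)

namespace FermatAgent.LTG

local notation "Qb" => AlgebraicClosure ℚ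
local notation "GQ" => AlgebraicClosure ℚ ≃ₐ[ℚ] AlgebraicClosure ℚ

attribute [local instance] FermatAgent.RT.isGalois_algClosureRat

/-- The input of the argument. -/
structure Setup where
  /-- the representation -/
  ρ : GQ →* GL (Fin 2) (ZMod 3)
  finiteLevel : GaloisFactorsThroughFiniteLevel ρ
  surjective : Function.Surjective ρ
  det_eq : ∀ σ, Matrix.GeneralLinearGroup.det (ρ σ) = WeierstrassCurve.modThreeCyclotomicChar σ
  /-- a multiple of `6` divisible by the ramified primes -/
  m : ℕ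
  m_ne_zero : m ≠ 0
  six_dvd : 6 ∣ m
  unramified : ∀ q : ℕ, q.Prime → ¬ q ∣ m → ∀ A : ValuationSubring Qb, A.LiesOverPrime q →
    ∀ σ ∈ A.inertiaSubgroupIn ℚ, ρ σ = 1

namespace Setup

variable (S : Setup)

theorem finiteDimensional_fixedField (H : Subgroup (GL (Fin 2) (ZMod 3))) :
    FiniteDimensional ℚ (IntermediateField.fixedField (H.comap S.ρ)) := by
  obtain ⟨L, hL, h1⟩ := S.finiteLevel
  have hle : IntermediateField.fixedField (H.comap S.ρ) ≤ L := by
    have : IsAlgClosure ℚ Qb := AlgebraicClosure.instIsAlgClosure ℚ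
    have : IsGalois ℚ Qb := IsAlgClosure.isGalois ℚ Qb
    rw [← InfiniteGalois.fixedField_fixingSubgroup L]
    refine IntermediateField.fixedField_antitone fun σ hσ => ?_
    rw [Subgroup.mem_comap, h1 σ (fun x hx => (IntermediateField.mem_fixingSubgroup_iff L σ).mp hσ x hx)]
    exact H.one_mem
  exact FiniteDimensional.of_injective (IntermediateField.inclusion hle).toLinearMap
    (IntermediateField.inclusion hle).injective

/-- The quadratic field cut out by the determinant. -/
def K : IntermediateField ℚ Qb :=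
  IntermediateField.fixedField
    ((Matrix.GeneralLinearGroup.det (n := Fin 2) (R := ZMod 3)).ker.comap S.ρ)

/-- The sextic field cut out by the quaternion subgroup. -/
def F : IntermediateField ℚ Qb := IntermediateField.fixedField (quaternionSubgroup.comap S.ρ)

instance : NumberField S.K where
  to_finiteDimensional := S.finiteDimensional_fixedField _

instance : NumberField S.F where
  to_finiteDimensional := S.finiteDimensional_fixedField _

theorem K_le_F : S.K ≤ S.F :=
  IntermediateField.fixedField_antitone (Subgroup.comap_mono fun _ hg =>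
    MonoidHom.mem_ker.mpr (Units.ext hg.1))

theorem exists_three_root : ∃ ζ : Qb, ζ ∈ S.K ∧ ζ ^ 3 = 1 ∧ ζ ≠ 1 ∧
    ∀ σ ∈ S.K.fixingSubgroup, WeierstrassCurve.modThreeCyclotomicChar σ = 1 := by
  have : NeZero ((3 : ℕ) : Qb) := ⟨by norm_num⟩
  obtain ⟨ζ, hζ⟩ := HasEnoughRootsOfUnity.exists_primitiveRoot Qb 3
  have hchar : ∀ σ : GQ, WeierstrassCurve.modThreeCyclotomicChar σ = 1 ↔ σ ζ = ζ := by
    intro σ
    have hspec := modularCyclotomicCharacter.spec Qb (IsAlgClosed.card_rootsOfUnity_eq Qb 3)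
      (σ : Qb ≃+* Qb) (t := ((hζ.toRootsOfUnity : rootsOfUnity 3 Qb) : Qbˣ)) hζ.toRootsOfUnity.2
    change σ ζ = ζ ^ _ at hspec
    rw [WeierstrassCurve.modThreeCyclotomicChar_apply]
    constructor
    · intro h
      rw [h] at hspec
      simpa [ZMod.val_one] using hspec
    · intro h
      refine Units.ext (ZMod.val_injective 3 ?_)
      rw [Units.val_one, ZMod.val_one]
      refine hζ.pow_inj (ZMod.val_lt _) (by norm_num) ?_
      rw [← hspec, h, pow_one]
  refine ⟨ζ, ?_, hζ.pow_eq_one, hζ.ne_one (by norm_num), fun σ hσ => (hchar σ).2 ?_⟩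
  · rintro ⟨σ, hσ⟩
    rw [Subgroup.mem_comap, MonoidHom.mem_ker, S.det_eq] at hσ
    exact (hchar σ).1 hσ
  · have hζK : ζ ∈ S.K := by
      rintro ⟨τ, hτ⟩
      rw [Subgroup.mem_comap, MonoidHom.mem_ker, S.det_eq] at hτ
      exact (hchar τ).1 hτ
    exact hσ ⟨ζ, hζK⟩

theorem det_eq_one_of_fix {σ : GQ} (hσ : σ ∈ S.K.fixingSubgroup) :
    ((S.ρ σ : GL (Fin 2) (ZMod 3)) : Matrix (Fin 2) (Fin 2) (ZMod 3)).det = 1 := by
  obtain ⟨ζ, -, -, -, h⟩ := S.exists_three_root
  rw [← Matrix.GeneralLinearGroup.val_det_apply, S.det_eq, h σ hσ, Units.val_one]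

theorem apply_eq_self_of_q8 {σ : GQ} (hσ : S.ρ σ ∈ quaternionSubgroup) {x : Qb} (hx : x ∈ S.F) :
    σ x = x :=
  hx ⟨σ, hσ⟩

instance instIsTotallyComplexF : IsTotallyComplex S.F := by
  refine ⟨fun w => ?_⟩
  rw [← InfinitePlace.not_isReal_iff_isComplex, InfinitePlace.isReal_iff]
  intro hr
  obtain ⟨ζ, hζ, h3, h1, -⟩ := S.exists_three_root
  let z : S.F := ⟨ζ, S.K_le_F hζ⟩
  have hz : w.embedding z ^ 3 = 1 := by
    rw [← map_pow, show z ^ 3 = 1 from Subtype.ext (by simpa [z] using h3), map_one]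
  have hreal := hr
  rw [ComplexEmbedding.isReal_iff] at hreal
  have him : (w.embedding z).im = 0 :=
    Complex.conj_eq_iff_im.mp ((ComplexEmbedding.conjugate_coe_eq _ z).symm.trans
      (RingHom.congr_fun hreal z))
  have hre : (w.embedding z) = ((w.embedding z).re : ℂ) := Complex.ext rfl (by simpa using him)
  rw [hre, ← Complex.ofReal_pow] at hz
  have hx : (w.embedding z).re = 1 := by
    have h := Complex.ofReal_eq_one.mp hz
    exact (pow_eq_one_iff_of_ne_zero (by norm_num)).mp h |>.elim id fun h' =>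
      absurd h'.2 (by decide)
  rw [hx, Complex.ofReal_one, ← map_one w.embedding] at hre
  exact h1 (congrArg Subtype.val (w.embedding.injective hre))

/-- `p` splits completely in `F`. -/
def SplitsInF (p : ℕ) : Prop :=
  ∀ A : ValuationSubring Qb, A.LiesOverPrime p → ∀ σ : GQ, A.IsFrobeniusAt σ p →
    S.ρ σ ∈ quaternionSubgroup

/-- The inclusion of `K` in `F`. -/
def inclKF : S.K →ₐ[ℚ] S.F := IntermediateField.inclusion S.K_le_F

/-- The inclusion of the rings of integers. -/
def inclInt : 𝓞 S.K →+* 𝓞 S.F := RingOfIntegers.mapRingHom S.inclKF.toRingHom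

/-- `σ` generates the Galois group of `F/K`. -/
def IsGalGen (σ : S.F ≃+* S.F) : Prop :=
  σ ≠ RingEquiv.refl _ ∧ ∀ x : S.K, σ (S.inclKF x) = S.inclKF x

theorem comap_ne_bot (w : HeightOneSpectrum (𝓞 S.F)) : w.asIdeal.comap S.inclInt ≠ ⊥ := by
  intro h
  let _ : Algebra (𝓞 S.K) (𝓞 S.F) := S.inclInt.toAlgebra
  have : Algebra.IsIntegral (𝓞 S.K) (𝓞 S.F) :=
    ⟨fun x => IsIntegral.tower_top (R := ℤ) (RingOfIntegers.isIntegral x)⟩
  exact w.ne_bot (Ideal.eq_bot_of_comap_eq_bot h)

/-- The place of `K` below a place of `F`. -/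
def underK (w : HeightOneSpectrum (𝓞 S.F)) : HeightOneSpectrum (𝓞 S.K) :=
  ⟨w.asIdeal.comap S.inclInt, Ideal.comap_isPrime _ _, S.comap_ne_bot w⟩

/-- The finitely many places over `m`. -/
def badPlaces (L : IntermediateField ℚ Qb) [NumberField L] :
    Finset (HeightOneSpectrum (𝓞 L)) :=
  (Ideal.finite_factors (I := Ideal.span {(S.m : 𝓞 L)}) (by
    simp [S.m_ne_zero])).toFinset

/-- A single place of `F` lies over `v`. -/
def IsFixed (v : HeightOneSpectrum (𝓞 S.K)) : Prop :=
  ∀ w w' : HeightOneSpectrum (𝓞 S.F), S.underK w = v → S.underK w' = v → w = w'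

end Setup

end FermatAgent.LTG

end
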