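import Mathlib
import Fermat.Agent.LT.General.Setup
import Fermat.Agent.LT.Descent.Classical.Eis

set_option autoImplicit false

/-!
# The quadratic field of a general setup
-/

noncomputable section

open NumberField

namespace FermatAgent.LTG

open FermatAgent.LT.Setup (modThree_eq_one_iff)

local notation "Qb" => AlgebraicClosure ℚ
local notation "GQ" => AlgebraicClosure ℚ ≃ₐ[ℚ] AlgebraicClosure ℚ

attribute [local instance] FermatAgent.RT.isGalois_algClosureRat

namespace Setup

variable (S : Setup)

theorem mem_K_fixing_iff (σ : GQ) :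
    σ ∈ (Matrix.GeneralLinearGroup.det (n := Fin 2) (R := ZMod 3)).ker.comap S.ρ ↔
      WeierstrassCurve.modThreeCyclotomicChar σ = 1 := by
  rw [Subgroup.mem_comap, MonoidHom.mem_ker, S.det_eq]

theorem K_eq_adjoin {ζ : Qb} (hζ : IsPrimitiveRoot ζ 3) :
    IntermediateField.adjoin ℚ {ζ} = S.K := by
  refine le_antisymm ?_ fun x hx => ?_
  · rw [IntermediateField.adjoin_le_iff, Set.singleton_subset_iff]
    rintro ⟨σ, hσ⟩
    exact (modThree_eq_one_iff hζ σ).1 ((S.mem_K_fixing_iff σ).1 hσ)
  · rw [← InfiniteGalois.fixedField_fixingSubgroup (IntermediateField.adjoin ℚ {ζ})]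
    rintro ⟨σ, hσ⟩
    have h : σ ζ = ζ := (IntermediateField.mem_fixingSubgroup_iff _ σ).1 hσ ζ
      (IntermediateField.mem_adjoin_simple_self ℚ ζ)
    exact hx ⟨σ, (S.mem_K_fixing_iff σ).2 ((modThree_eq_one_iff hζ σ).2 h)⟩

instance instIsCyclotomicK : IsCyclotomicExtension {3} ℚ S.K := by
  have : NeZero ((3 : ℕ) : Qb) := ⟨by norm_num⟩
  obtain ⟨ζ, hζ⟩ := HasEnoughRootsOfUnity.exists_primitiveRoot Qb 3
  rw [← S.K_eq_adjoin hζ]
  exact hζ.intermediateField_adjoin_isCyclotomicExtension ℚ

instance instIsTotallyComplexK : IsTotallyComplex S.K :=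
  IsCyclotomicExtension.Rat.isTotallyComplex (n := 3) S.K (by norm_num)

theorem finrank_K : Module.finrank ℚ S.K = 2 := by
  rw [IsCyclotomicExtension.finrank (n := 3) S.K
    (Polynomial.cyclotomic.irreducible_rat (by norm_num)), Nat.totient_prime Nat.prime_three]

instance instUniquePlace : Unique (InfinitePlace S.K) :=
  have hc : Fintype.card (InfinitePlace S.K) = 1 := by
    have h := IsTotallyComplex.finrank S.K
    rw [S.finrank_K] at h
    rw [InfinitePlace.card_eq_nrRealPlaces_add_nrComplexPlaces,
      IsTotallyComplex.nrRealPlaces_eq_zero]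
    omega
  have : Subsingleton (InfinitePlace S.K) := Fintype.card_le_one_iff_subsingleton.mp hc.le
  uniqueOfSubsingleton (Classical.arbitrary _)

instance instPIDK : IsPrincipalIdealRing (𝓞 S.K) :=
  IsCyclotomicExtension.Rat.three_pid S.K

/-- The complex embedding. -/
def emb : S.K →+* ℂ := (default : InfinitePlace S.K).embedding

theorem embedding_eq (w : InfinitePlace S.K) : w.embedding = S.emb := by
  rw [Subsingleton.elim w default]; rfl

end Setup

end FermatAgent.LTG

end
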