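import Mathlib
import Fermat.Agent.LT.Descent.Ops

set_option autoImplicit false

/-!
# Box groups and their additive characters

A box group consists of the integral matrices `(1 + a, b; M₂ c, 1 + d)` with `a, d` in `A` and
`b, c` in `B`, taken modulo `N`; its character is `exp (2πi tr b / M₁)`.
-/

noncomputable section

open NumberField IsDedekindDomain
open FermatAgent.LT (Cosets GAf IntAd intToAdele rightOp)

namespace FermatAgent.LTG

variable {L : Type*} [Field L] [NumberField L]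

/-- The parameters of a box group. -/
structure Box (L : Type*) [Field L] [NumberField L] where
  /-- the box of the diagonal entries, shifted by one -/
  A : AddSubgroup (𝓞 L)
  /-- the box of the upper right entry -/
  B : AddSubgroup (𝓞 L)
  /-- the denominator of the character -/
  M₁ : ℕ
  /-- the factor of the lower left entry -/
  M₂ : ℕ
  /-- the level -/
  N : ℕ

/-- `exp (2πi t / M)`. -/
def ratChar (M : ℕ) (t : ℤ) : ℂ :=
  Complex.exp (2 * Real.pi * Complex.I * (t : ℂ) / (M : ℂ))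

namespace Box

/-- The level ideal. -/
abbrev lvlIdeal (P : Box L) : Ideal (𝓞 L) := Ideal.span {(P.N : 𝓞 L)}

/-- The conditions which make the box a group and its character multiplicative. -/
structure IsGood (P : Box L) : Prop where
  pos : 0 < P.N
  M₁_dvd : P.M₁ ∣ P.N
  N_mem_A : ∀ o : 𝓞 L, (P.N : 𝓞 L) * o ∈ P.A
  N_mem_B : ∀ o : 𝓞 L, (P.N : 𝓞 L) * o ∈ P.B
  N_mem_C : ∀ o : 𝓞 L, ∃ b ∈ P.B, (P.N : 𝓞 L) * o = (P.M₂ : 𝓞 L) * b
  mul_A : ∀ a ∈ P.A, ∀ a' ∈ P.A, a * a' ∈ P.A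
  mul_AB : ∀ a ∈ P.A, ∀ b ∈ P.B, a * b ∈ P.B
  mul_BB : ∀ b ∈ P.B, ∀ b' ∈ P.B, (P.M₂ : 𝓞 L) * (b * b') ∈ P.A
  ker : ∀ a ∈ P.A, ∀ b ∈ P.B, (P.M₁ : ℤ) ∣ Algebra.trace ℤ (𝓞 L) (a * b)
  /-- the diagonal boxes consist of topologically nilpotent elements -/
  nilp : ∀ v : HeightOneSpectrum (𝓞 L), (P.N : 𝓞 L) ∈ v.asIdeal → ∀ a ∈ P.A, a ∈ v.asIdeal
  M₂_mem : ∀ v : HeightOneSpectrum (𝓞 L), (P.N : 𝓞 L) ∈ v.asIdeal → (P.M₂ : 𝓞 L) ∈ v.asIdeal

variable (P : Box L)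

/-- The residual matrix with the given parameters. -/
def resMat (a b c d : 𝓞 L) : Matrix (Fin 2) (Fin 2) (𝓞 L ⧸ P.lvlIdeal) :=
  (!![1 + a, b; (P.M₂ : 𝓞 L) * c, 1 + d]).map (Ideal.Quotient.mk P.lvlIdeal)

/-- The box group modulo the level. -/
def resSet : Set (Matrix (Fin 2) (Fin 2) (𝓞 L ⧸ P.lvlIdeal)) :=
  {M | ∃ a ∈ P.A, ∃ b ∈ P.B, ∃ c ∈ P.B, ∃ d ∈ P.A, M = P.resMat a b c d}

open Classical in
/-- The character of the box group. -/
def chi (M : Matrix (Fin 2) (Fin 2) (𝓞 L ⧸ P.lvlIdeal)) : ℂ :=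
  if h : ∃ b ∈ P.B, Ideal.Quotient.mk P.lvlIdeal b = M 0 1 then
    ratChar P.M₁ (Algebra.trace ℤ (𝓞 L) h.choose) else 0

/-- An integral adelic matrix with the given reduction. -/
def IsLiftOf (k : GL (Fin 2) (IntAd L)) (M : Matrix (Fin 2) (Fin 2) (𝓞 L ⧸ P.lvlIdeal)) : Prop :=
  ∃ o : Matrix (Fin 2) (Fin 2) (𝓞 L), o.map (Ideal.Quotient.mk P.lvlIdeal) = M ∧
    ∀ i j, (k : Matrix (Fin 2) (Fin 2) (IntAd L)) i j -
        RingHom.pi (fun v : HeightOneSpectrum (𝓞 L) =>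
          algebraMap (𝓞 L) (v.adicCompletionIntegers L)) (o i j) ∈
      P.lvlIdeal.map (RingHom.pi fun v : HeightOneSpectrum (𝓞 L) =>
        algebraMap (𝓞 L) (v.adicCompletionIntegers L))

open Classical in
/-- A chosen lift to the adelic group. -/
def lift (M : Matrix (Fin 2) (Fin 2) (𝓞 L ⧸ P.lvlIdeal)) : GAf L :=
  if h : ∃ k, P.IsLiftOf k M then Matrix.GeneralLinearGroup.map intToAdele h.choose else 1

/-- The projection to the character of the box group. -/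
def op : Module.End ℂ (Cosets P.lvlIdeal → ℂ) :=
  (Nat.card P.resSet : ℂ)⁻¹ • ∑ᶠ M ∈ P.resSet, (P.chi M)⁻¹ • rightOp P.lvlIdeal (P.lift M)

end Box

end FermatAgent.LTG

end
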