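import Mathlib
import Fermat.Agent.LT.General.Setup
import Fermat.Agent.LT.General.Box

set_option autoImplicit false

/-!
# The levels on the two fields and the matched operators

With `M₁ = m ^ (4k)`, `M₂ = m ^ l` and level `m ^ (l + 2)`: on `F` the upper box `B` consists of the
integers with trace to `K` divisible by `3` at the fixed bad places and the diagonal box is its dual;
on `K` the upper box is `3` times the integers at the fixed bad places and the diagonal box is the
dual of the integers.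
-/

noncomputable section

open NumberField IsDedekindDomain
open FermatAgent.LT (Cosets galInt heckeOp heckeWord)
open scoped MatrixGroups

namespace FermatAgent.LTG

local notation "Qb" => AlgebraicClosure ℚ

/-- The exponents of the level. -/
structure Setup.Level (S : Setup) where
  /-- a quarter of the exponent of the character -/
  k : ℕ
  /-- the exponent of the lower left entry -/
  l : ℕ
  two_le : 2 ≤ k
  l_ge : 12 * k ≤ l
  /-- the inverse different of `F` is killed by `m ^ k` -/
  diff : ∀ y : S.F, (∀ o : 𝓞 S.F, ∃ t : ℤ, Algebra.trace ℚ S.F (y * (o : S.F)) = t) →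
    ∃ z : 𝓞 S.F, (z : S.F) = ((S.m ^ k : ℕ) : S.F) * y

namespace Setup

variable (S : Setup)

/-- The upper box on `F`. -/
def boxBF (σ : S.F ≃+* S.F) : AddSubgroup (𝓞 S.F) where
  carrier := {x | ∀ w : HeightOneSpectrum (𝓞 S.F), w ∈ S.badPlaces S.F → S.IsFixed (S.underK w) →
    ∃ s ∉ w.asIdeal, (3 : 𝓞 S.F) ∣ s * (x + galInt σ x + galInt σ (galInt σ x))}
  zero_mem' w _ _ := ⟨1, fun h => w.isPrime.ne_top ((Ideal.eq_top_iff_one _).mpr h), by simp⟩
  add_mem' {x y} hx hy w hw hf := by
    obtain ⟨s, hs, hsx⟩ := hx w hw hf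
    obtain ⟨t, ht, hty⟩ := hy w hw hf
    refine ⟨s * t, fun h => (w.isPrime.mem_or_mem h).elim hs ht, ?_⟩
    have : s * t * (x + y + galInt σ (x + y) + galInt σ (galInt σ (x + y))) =
        t * (s * (x + galInt σ x + galInt σ (galInt σ x))) +
          s * (t * (y + galInt σ y + galInt σ (galInt σ y))) := by
      simp only [map_add]; ring
    rw [this]
    exact dvd_add (hsx.mul_left _) (hty.mul_left _)
  neg_mem' {x} hx w hw hf := by
    obtain ⟨s, hs, hsx⟩ := hx w hw hf
    refine ⟨s, hs, ?_⟩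
    have : s * (-x + galInt σ (-x) + galInt σ (galInt σ (-x))) =
        -(s * (x + galInt σ x + galInt σ (galInt σ x))) := by
      simp only [map_neg]; ring
    rw [this]
    exact hsx.neg_right

/-- The upper box on `K`. -/
def boxBK : AddSubgroup (𝓞 S.K) where
  carrier := {x | ∀ v : HeightOneSpectrum (𝓞 S.K), v ∈ S.badPlaces S.K → S.IsFixed v →
    ∃ s ∉ v.asIdeal, (3 : 𝓞 S.K) ∣ s * x}
  zero_mem' v _ _ := ⟨1, fun h => v.isPrime.ne_top ((Ideal.eq_top_iff_one _).mpr h), by simp⟩
  add_mem' {x y} hx hy v hv hf := by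
    obtain ⟨s, hs, hsx⟩ := hx v hv hf
    obtain ⟨t, ht, hty⟩ := hy v hv hf
    refine ⟨s * t, fun h => (v.isPrime.mem_or_mem h).elim hs ht, ?_⟩
    rw [show s * t * (x + y) = t * (s * x) + s * (t * y) by ring]
    exact dvd_add (hsx.mul_left _) (hty.mul_left _)
  neg_mem' {x} hx v hv hf := by
    obtain ⟨s, hs, hsx⟩ := hx v hv hf
    exact ⟨s, hs, by rw [mul_neg]; exact hsx.neg_right⟩

end Setup

namespace Setup.Level

variable {S : Setup} (D : S.Level)

/-- The denominator of the characters. -/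
def M₁ : ℕ := S.m ^ (4 * D.k)

/-- The level. -/
def lvl : ℕ := S.m ^ (D.l + 2)

/-- The level ideal of a field. -/
abbrev levelIdeal (L : IntermediateField ℚ Qb) [NumberField L] : Ideal (𝓞 L) :=
  Ideal.span {(D.lvl : 𝓞 L)}

/-- The diagonal box on `F`: the dual of the upper one. -/
def boxAF (σ : S.F ≃+* S.F) : AddSubgroup (𝓞 S.F) where
  carrier := {y | ∀ b ∈ S.boxBF σ, (D.M₁ : ℤ) ∣ Algebra.trace ℤ (𝓞 S.F) (y * b)}
  zero_mem' b _ := by simp
  add_mem' {x y} hx hy b hb := by simpa [add_mul] using dvd_add (hx b hb) (hy b hb)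
  neg_mem' {x} hx b hb := by simpa using (hx b hb).neg_right

/-- The diagonal box on `K`: the dual of the integers. -/
def boxAK : AddSubgroup (𝓞 S.K) where
  carrier := {y | ∀ o : 𝓞 S.K, (D.M₁ : ℤ) ∣ Algebra.trace ℤ (𝓞 S.K) (y * o)}
  zero_mem' o := by simp
  add_mem' {x y} hx hy o := by simpa [add_mul] using dvd_add (hx o) (hy o)
  neg_mem' {x} hx o := by simpa using (hx o).neg_right

/-- The box group on `F`. -/
@[reducible] def boxF (σ : S.F ≃+* S.F) : Box S.F :=
  ⟨D.boxAF σ, S.boxBF σ, D.M₁, S.m ^ D.l, D.lvl⟩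

/-- The box group on `K`. -/
@[reducible] def boxK : Box S.K := ⟨D.boxAK, S.boxBK, D.M₁, S.m ^ D.l, D.lvl⟩

/-- The projection of the level on `F`. -/
def levelOpF (σ : S.F ≃+* S.F) : Module.End ℂ (Cosets (D.levelIdeal S.F) → ℂ) := (D.boxF σ).op

/-- The projection of the level on `K`. -/
def levelOpK : Module.End ℂ (Cosets (D.levelIdeal S.K) → ℂ) := D.boxK.op

/-- The base change of the Hecke operator at a place of degree one over `K`. -/
def bcOp (w : HeightOneSpectrum (𝓞 S.F)) : Module.End ℂ (Cosets (D.levelIdeal S.K) → ℂ) :=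
  heckeOp _ (S.underK w)

end Setup.Level

/-- The product of the kernels at the three places of `F` over a place of `K`. -/
def Setup.slotKer (S : Setup) (σ : S.F ≃+* S.F) (w₁ : InfinitePlace S.K → InfinitePlace S.F)
    (h : InfinitePlace S.F → LT.H3 → LT.H3 → ℂ) (u : InfinitePlace S.K) : LT.H3 → LT.H3 → ℂ :=
  LT.H3.kConv (LT.H3.kConv (h (w₁ u)) (h ((w₁ u).comap σ.toRingHom)))
    (h (((w₁ u).comap σ.toRingHom).comap σ.toRingHom))

end FermatAgent.LTG

end
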