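import Mathlib
import Fermat.Agent.LT.General.Level
import Fermat.Agent.LT.Bianchi
import Fermat.Prelude.Def_FLTPrelim_Modularity
import Fermat.Prelude.Def_ModularForm_EisensteinChiNegThree

set_option autoImplicit false

/-!
# The interfaces of the general Langlands-Tunnell argument

dihedral form on `F` → descended form on `K` → classical Bianchi form → weight one source.
-/

noncomputable section

open MeasureTheory NumberField IsDedekindDomain ModularFormClass CongruenceSubgroup UpperHalfPlane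
open FermatAgent.LT (H3 XInf GAf IsCuspFn IsEigenAt IsFrobOver q8Trace quaternionSubgroup
  EisInt eisIdeal redMat diagMat zmodMat cplxMat heckeRep heckeRepMod omega)
open scoped MatrixGroups ModularForm ComplexConjugate

namespace FermatAgent.LTG

/-- A cusp form on `F` of level `m ^ n` with the dihedral eigenvalues. -/
structure IsDihedralLike (S : Setup) (n : ℕ) (G : XInf S.F → GAf S.F → ℂ) : Prop where
  cusp : IsCuspFn (Ideal.span {((S.m ^ n : ℕ) : 𝓞 S.F)}) G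
  eigen : ∀ w : HeightOneSpectrum (𝓞 S.F), (S.m : 𝓞 S.F) ∉ w.asIdeal →
    ∀ σ, IsFrobOver w σ → IsEigenAt w G (q8Trace (S.ρ σ) : ℂ)

/-- The descended form: of the type of the box group at the bad places, eigen at every good place,
with the dihedral eigenvalues at the places split in `F` outside `T`. -/
structure IsDescended (S : Setup) (D : S.Level) (T : Finset ℕ)
    (φ : XInf S.K → GAf S.K → ℂ) : Prop where
  ne_zero : φ ≠ 0
  T_ne_zero : 0 ∉ T
  cusp : IsCuspFn (D.levelIdeal S.K) φ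
  chi : ∀ M ∈ D.boxK.resSet, ∀ x g, φ x (g * D.boxK.lift M) = D.boxK.chi M * φ x g
  eigen : ∀ v : HeightOneSpectrum (𝓞 S.K), (S.m : 𝓞 S.K) ∉ v.asIdeal →
    ∃ l : ℝ, IsEigenAt v φ (l : ℂ) ∧
      ((∀ p ∈ T, (p : 𝓞 S.K) ∉ v.asIdeal) → ∀ σ, IsFrobOver v σ →
        S.ρ σ ∈ quaternionSubgroup → l = (q8Trace (S.ρ σ) : ℝ))

/-- A cusp form on `H3 × GL₂(O/N)` for `O` the Eisenstein integers, `N` supported on the bad
primes, with multiplicative coefficients prime to `N`. -/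
structure BianchiForm (S : Setup) where
  /-- the level -/
  N : ℕ
  N_ne_zero : N ≠ 0
  m_dvd : S.m ∣ N
  dvd_m : ∀ q : ℕ, q.Prime → q ∣ N → q ∣ S.m
  /-- the form -/
  φ : H3 → GL (Fin 2) (EisInt ⧸ eisIdeal N) → ℂ
  invariant : ∀ (γ : GL (Fin 2) EisInt) (P : H3) h, φ (cplxMat γ • P) (redMat _ γ * h) = φ P h
  scalar : ∀ (a : (EisInt ⧸ eisIdeal N)ˣ) P h,
    φ P (h * Matrix.GeneralLinearGroup.scalar (Fin 2) a) = φ P h
  continuous : ∀ h, Continuous fun P => φ P h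
  bounded : ∃ C, ∀ P h, ‖φ P h‖ ≤ C
  decay : ∀ h, ∃ C, ∀ P : H3, 1 ≤ P.t → ‖φ P h‖ ≤ C / P.t
  sph0 : ∀ h, H3.IsSph0 fun P => φ P h
  cuspidal : ∀ (t : ℝ) (ht : 0 < t) h,
    ∫ xy in Set.Icc (0 : ℝ) 1 ×ˢ Set.Icc (0 : ℝ) 1,
      φ ⟨(N : ℂ) * (xy.1 + xy.2 * omega), t, ht⟩ h = 0
  /-- the coefficients -/
  c : EisInt → ℂ
  expansion : ∀ (d : (EisInt ⧸ eisIdeal N)ˣ) (P : H3),
    HasSum (fun ν : EisInt => c ν *
      H3.wave ((ν : ℂ) / ((N : ℂ) * (1 + 2 * omega))) P) (φ P (diagMat d))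
  c_zero : c 0 = 0
  c_one : c 1 = 1
  c_real : ∀ ν, conj (c ν) = c ν
  c_unit : ∀ (u : EisIntˣ) ν, c ((u : EisInt) * ν) = c ν
  c_support : ∀ ν : EisInt, ¬ IsCoprime ν (N : EisInt) → c ν = 0
  c_mul : ∀ μ ν : EisInt, IsCoprime μ ν → c (μ * ν) = c μ * c ν
  c_prime_pow : ∀ (π : EisInt) (k : ℕ), Prime π → IsCoprime π (N : EisInt) →
    c (π ^ (k + 2)) = c π * c (π ^ (k + 1)) - c (π ^ k)
  /-- the finitely many rational primes at which the eigenvalue is not prescribed -/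
  exc : Finset ℕ
  c_split : ∀ (π : EisInt) (p : ℕ), Prime π → p.Prime → p ∉ exc → ¬ p ∣ N →
    π ∣ (p : EisInt) → Complex.normSq (π : ℂ) = p → S.SplitsInF p →
    ∀ A : ValuationSubring (AlgebraicClosure ℚ), A.LiesOverPrime p → ∀ σ, A.IsFrobeniusAt σ p →
      c π = (q8Trace (S.ρ σ) : ℂ)
  c_inert : ∀ p : ℕ, p.Prime → p ∉ exc → ¬ p ∣ N → p % 3 = 2 →
    ∀ A : ValuationSubring (AlgebraicClosure ℚ), A.LiesOverPrime p → ∀ σ, A.IsFrobeniusAt σ p →
      c (p : EisInt) = (q8Trace (S.ρ σ ^ 2) : ℂ)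
  hecke : ∀ (π : EisInt) (hπ : (π : ℂ) ≠ 0) (p : ℕ) (u : (EisInt ⧸ eisIdeal N)ˣ),
    Prime π → p.Prime → Complex.normSq (π : ℂ) = p →
    (u : EisInt ⧸ eisIdeal N) = Ideal.Quotient.mk _ π →
    ∀ P h, (∑ b ∈ (Finset.range p).image (fun k : ℕ => some (k : EisInt)) ∪ {none},
      φ (heckeRep π hπ b • P) (heckeRepMod N u b * h)) =
        (Real.sqrt p : ℂ) * c π * φ P h

namespace BianchiForm

variable {S : Setup} (B : BianchiForm S)

/-- The period over the rational modular curves. -/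
def period [NeZero B.N] : ℂ :=
  ∫ τ in ModularGroup.fd, ∑ h : GL (Fin 2) (ZMod B.N), B.φ (H3.ofUHP τ) (zmodMat B.N h)

end BianchiForm

/-- A weight one form with character `χ₋₃` having the eigenvalues prescribed by `S` at almost all
primes split completely in `F`. -/
structure WeightOneSource (S : Setup) where
  /-- the level -/
  M : ℕ
  M_pos : 0 < M
  three_dvd : 3 ∣ M
  m_dvd : S.m ∣ M
  /-- the form -/
  f : CuspForm (Gamma1 M) 1
  f_ne_zero : f ≠ 0
  character : ∀ γ : SL(2, ℤ), γ ∈ Gamma0 M → (⇑f : ℍ → ℂ) ∣[(1 : ℤ)] γ =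
    (EisensteinWeightOne.chiNegThree (((γ 1 1 : ℤ)) % M).toNat : ℂ) • (⇑f : ℍ → ℂ)
  /-- the exceptional primes -/
  exc : Finset ℕ
  hecke : ∀ p : ℕ, p.Prime → p ∉ exc → ¬ p ∣ M → S.SplitsInF p →
    ∀ A : ValuationSubring (AlgebraicClosure ℚ), A.LiesOverPrime p → ∀ σ, A.IsFrobeniusAt σ p →
      ∀ n : ℕ, qCoeff f (p * n) + (if p ∣ n then qCoeff f (n / p) else 0) =
        (q8Trace (S.ρ σ) : ℂ) * qCoeff f n

end FermatAgent.LTG

end
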