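import Fermat.Agent.LT.General.Galois.Main
import Fermat.Agent.LT.General.Lift.Main
import Fermat.Agent.LT.General.Facts.Exists
import Fermat.Agent.LT.General.Classical.Main

set_option autoImplicit false

/-!
# The theorem of Langlands and Tunnell, assembled from its pieces
-/

noncomputable section

open Matrix
open FermatAgent.LT (XInf GAf)
open FLT.ExplicitLift (red)
open EisensteinWeightOne (chiNegThree)
open scoped MatrixGroups

namespace FermatAgent.LTG

local notation "Qb" => AlgebraicClosure ℚ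
local notation "GQ" => AlgebraicClosure ℚ ≃ₐ[ℚ] AlgebraicClosure ℚ

/-- The statement, given the descent and the theorem of Deligne and Serre. -/
theorem result_of
    (hDesc : ∀ S : Setup, ∃ (D : S.Level) (T : Finset ℕ) (φ : XInf S.K → GAf S.K → ℂ),
      IsDescended S D T φ)
    (hDS : DeligneSerreWeightOne)
    (ρ : GQ →* GL (Fin 2) (ZMod 3)) (hρ : Continuous ρ) (hsurj : Function.Surjective ρ)
    (hdet : ∀ σ : GQ, Matrix.GeneralLinearGroup.det (ρ σ) =
      WeierstrassCurve.modThreeCyclotomicChar σ)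
    (Ψ : GL (Fin 2) (ZMod 3) →* GL (Fin 2) (ℤ√(-2)))
    (hΨ : ∀ g, Matrix.GeneralLinearGroup.map red (Ψ g) = g) :
    ∃ (N : ℕ) (_ : NeZero N) (b : ℕ → ℤ√(-2)),
      FormalHecke.IsEigensystem
        (fun ℓ => if ℓ ∣ N then 0 else ((chiNegThree ℓ : ℤ) : ℤ√(-2))) b ∧
      CuspForm.IsWeightOneChiNegThreeRealized N b ∧
      ∀ p : ℕ, p.Prime → ¬ p ∣ 3 * N →
        ∀ A : ValuationSubring (AlgebraicClosure ℚ), A.LiesOverPrime p →
          ∀ σ : GQ, A.IsFrobeniusAt σ p →
            b p = ((Ψ (ρ σ) : GL (Fin 2) (ℤ√(-2))) : Matrix (Fin 2) (Fin 2) (ℤ√(-2))).trace := by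
  obtain ⟨S, rfl⟩ := exists_setup ρ hρ hsurj hdet
  obtain ⟨D, T, φ, hφ⟩ := hDesc S
  obtain ⟨B⟩ := exists_bianchiForm S hφ
  obtain ⟨W⟩ := B.nonempty_weightOne
  exact W.exists_realized hDS Ψ hΨ

end FermatAgent.LTG

end
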